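/-
Program R, package R2b (helper3): the exact exponent of the different at a tamely ramified prime.
-/
import Mathlib

set_option autoImplicit false

namespace Fermat.Agent.ProgramR.Alg

open Module nonZeroDivisors

attribute [local instance] FractionRing.liftAlgebra FractionRing.isScalarTower_liftAlgebra
  Ideal.Quotient.field

variable (A : Type*) {B : Type*} [CommRing A] [CommRing B] [Algebra A B]
  [IsDedekindDomain A] [IsDedekindDomain B] [IsTorsionFree A B] [Module.Finite A B]

/-- If `pB = I * Q` with `I`, `Q` coprime, `I ≠ ⊤` and the residue field `A/p` has characteristic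
zero, then `I` does not divide the different.  (Applied with `I = P ^ e`.) -/
theorem not_dvd_differentIdeal_of_isCoprime_of_charZero
    [Algebra.IsSeparable (FractionRing A) (FractionRing B)]
    {p : Ideal A} [p.IsMaximal] [CharZero (A ⧸ p)] (I Q : Ideal B) (hI : I ≠ ⊤)
    (hIQ : IsCoprime I Q) (hP : I * Q = Ideal.map (algebraMap A B) p) :
    ¬ I ∣ differentIdeal A B := by
  have hIle : p ≤ I.comap (algebraMap A B) := by
    rw [← Ideal.map_le_iff_le_comap, ← hP]; exact Ideal.mul_le_left (I := I) (J := Q)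
  have hQle : p ≤ Q.comap (algebraMap A B) := by
    rw [← Ideal.map_le_iff_le_comap, ← hP]; exact Ideal.mul_le_right (I := I) (J := Q)
  let _ : Algebra (A ⧸ p) (B ⧸ I) := Ideal.Quotient.algebraQuotientOfLEComap hIle
  let _ : Algebra (A ⧸ p) (B ⧸ Q) := Ideal.Quotient.algebraQuotientOfLEComap hQle
  have : IsScalarTower A (A ⧸ p) (B ⧸ I) := .of_algebraMap_eq' rfl
  have : IsScalarTower A (A ⧸ p) (B ⧸ Q) := .of_algebraMap_eq' rfl
  have : Module.Finite (A ⧸ p) (B ⧸ I) :=
    Module.Finite.of_restrictScalars_finite A (A ⧸ p) (B ⧸ I)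
  have : Module.Finite (A ⧸ p) (B ⧸ Q) :=
    Module.Finite.of_restrictScalars_finite A (A ⧸ p) (B ⧸ Q)
  have : Nontrivial (B ⧸ I) := Ideal.Quotient.nontrivial_iff.mpr hI
  let e : (B ⧸ p.map (algebraMap A B)) ≃ₐ[A ⧸ p] ((B ⧸ I) × B ⧸ Q) :=
    { __ := (Ideal.quotEquivOfEq hP.symm).trans (Ideal.quotientMulEquivQuotientProd I Q hIQ),
      commutes' := Quotient.ind fun _ ↦ rfl }
  obtain ⟨y, hy⟩ := Ideal.Quotient.mk_surjective (e.symm (1, 0))
  refine not_dvd_differentIdeal_of_intTrace_not_mem A I Q hP y ?_ ?_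
  · have := congr((e $hy).2)
    simp at this
    simpa [e, Ideal.Quotient.eq_zero_iff_mem] using this
  · rw [← Ideal.Quotient.eq_zero_iff_mem, ← Algebra.trace_quotient_eq_of_isDedekindDomain,
      hy, Algebra.trace_eq_of_algEquiv, Algebra.trace_prod_apply]
    have h1 : Algebra.trace (A ⧸ p) (B ⧸ I) 1 = (Module.finrank (A ⧸ p) (B ⧸ I) : A ⧸ p) := by
      have := Algebra.trace_algebraMap (R := A ⧸ p) (S := B ⧸ I) (1 : A ⧸ p)
      simpa using this
    have hpos : 0 < Module.finrank (A ⧸ p) (B ⧸ I) := Module.finrank_pos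
    simp only [map_zero, add_zero]
    rw [h1]
    exact_mod_cast hpos.ne'

end Fermat.Agent.ProgramR.Alg
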