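/-
Program R (helper3): the ring `Ainf k ⊂ RatFunc k` of rational functions regular at infinity is a
discrete valuation ring with uniformizer `X⁻¹`, fraction field `RatFunc k`.
-/
import Mathlib
import Fermat.Agent.ProgramR.RR.Infty

set_option autoImplicit false

namespace Fermat.Agent.ProgramR.Alg

open Polynomial Fermat.Agent.ProgramR.RR

variable {k : Type*} [Field k]

/-- pole order at infinity of a nonzero element of `Ainf` (a natural number). -/
noncomputable def ainfDeg (r : RatFunc k) : ℕ := (-(r.intDegree)).toNat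

lemma ainfDeg_spec {r : RatFunc k} (hr0 : r ≠ 0) (hr : r ∈ Ainf k) :
    (ainfDeg r : ℤ) = -r.intDegree := by
  have := (mem_Ainf_of_ne_zero hr0).mp hr
  unfold ainfDeg
  omega

/-- divisibility in `Ainf` is comparison of degrees. -/
lemma Ainf_dvd_of_le {r s : Ainf k} (hr0 : r ≠ 0) (h : s = 0 ∨ ainfDeg (r : RatFunc k) ≤ ainfDeg (s : RatFunc k)) :
    r ∣ s := by
  rcases h with rfl | h
  · exact dvd_zero r
  by_cases hs0 : s = 0
  · subst hs0; exact dvd_zero r
  have hr0' : (r : RatFunc k) ≠ 0 := fun h0 => hr0 (Subtype.ext h0)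
  have hs0' : (s : RatFunc k) ≠ 0 := fun h0 => hs0 (Subtype.ext h0)
  have h1 := ainfDeg_spec hr0' r.2
  have h2 := ainfDeg_spec hs0' s.2
  have hq : (s : RatFunc k) / r ∈ Ainf k := by
    rw [mem_Ainf_of_ne_zero (div_ne_zero hs0' hr0'), div_eq_mul_inv,
      RatFunc.intDegree_mul hs0' (inv_ne_zero hr0'), RatFunc.intDegree_inv]
    omega
  refine ⟨⟨_, hq⟩, Subtype.ext ?_⟩
  simp only [Subring.coe_mul]
  field_simp

instance : IsDomain (Ainf k) := inferInstance

instance instIsPrincipalIdealRingAinf : IsPrincipalIdealRing (Ainf k) := by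
  classical
  refine ⟨fun I => ?_⟩
  by_cases hI : I = ⊥
  · subst hI; exact ⟨⟨0, by simp⟩⟩
  obtain ⟨x, hxI, hx0⟩ := Submodule.exists_mem_ne_zero_of_ne_bot hI
  -- choose an element of minimal degree
  let S : Set ℕ := {d | ∃ r : Ainf k, r ∈ I ∧ r ≠ 0 ∧ ainfDeg (r : RatFunc k) = d}
  have hS : S.Nonempty := ⟨_, x, hxI, hx0, rfl⟩
  obtain ⟨r, hrI, hr0, hrd⟩ := Nat.sInf_mem hS
  refine ⟨⟨r, le_antisymm (fun s hs => ?_) ?_⟩⟩
  · show s ∈ Ideal.span {r}
    rw [Ideal.mem_span_singleton]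
    by_cases hs0 : s = 0
    · subst hs0; exact dvd_zero r
    have hle : ainfDeg (r : RatFunc k) ≤ ainfDeg (s : RatFunc k) := by
      rw [hrd]; exact Nat.sInf_le ⟨s, hs, hs0, rfl⟩
    exact Ainf_dvd_of_le hr0 (Or.inr hle)
  · rw [Ideal.submodule_span_eq, Ideal.span_singleton_le_iff_mem]; exact hrI

/-- `X⁻¹` as an element of `Ainf`. -/
noncomputable def XinvAinf : Ainf k :=
  ⟨(RatFunc.X : RatFunc k)⁻¹, Or.inr (by rw [RatFunc.intDegree_inv, RatFunc.intDegree_X]; norm_num)⟩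

lemma XinvAinf_ne_zero : (XinvAinf : Ainf k) ≠ 0 := by
  intro h
  have := congrArg Subtype.val h
  simp [XinvAinf, RatFunc.X_ne_zero] at this

lemma isUnit_Ainf_iff {r : Ainf k} : IsUnit r ↔ r ≠ 0 ∧ (r : RatFunc k).intDegree = 0 := by
  constructor
  · rintro ⟨⟨u, v, huv, hvu⟩, rfl⟩
    have hu0 : u ≠ 0 := by rintro rfl; simp at huv
    have hv0 : v ≠ 0 := by rintro rfl; simp at huv
    refine ⟨hu0, ?_⟩
    have hu0' : (u : RatFunc k) ≠ 0 := fun h0 => hu0 (Subtype.ext h0)
    have hv0' : (v : RatFunc k) ≠ 0 := fun h0 => hv0 (Subtype.ext h0)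
    have h1 := (mem_Ainf_of_ne_zero hu0').mp u.2
    have h2 := (mem_Ainf_of_ne_zero hv0').mp v.2
    have h3 : ((u : RatFunc k) * v).intDegree = 0 := by
      have := congrArg Subtype.val huv
      simp only [Subring.coe_mul, Subring.coe_one] at this
      rw [this, RatFunc.intDegree_one]
    rw [RatFunc.intDegree_mul hu0' hv0'] at h3
    show (u : RatFunc k).intDegree = 0
    omega
  · rintro ⟨hr0, hd⟩
    have hr0' : (r : RatFunc k) ≠ 0 := fun h0 => hr0 (Subtype.ext h0)
    refine ⟨⟨r, ⟨_, inv_mem_Ainf hd⟩, Subtype.ext ?_, Subtype.ext ?_⟩, rfl⟩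
    · simp [hr0']
    · simp [hr0']

instance instIsLocalRingAinf : IsLocalRing (Ainf k) := by
  refine IsLocalRing.of_nonunits_add ?_
  intro a b ha hb
  rw [mem_nonunits_iff, isUnit_Ainf_iff] at ha hb ⊢
  rintro ⟨hab0, habd⟩
  by_cases ha0 : a = 0
  · subst ha0; rw [zero_add] at hab0 habd; exact hb ⟨hab0, habd⟩
  by_cases hb0 : b = 0
  · subst hb0; rw [add_zero] at hab0 habd; exact ha ⟨hab0, habd⟩
  have ha0' : (a : RatFunc k) ≠ 0 := fun h0 => ha0 (Subtype.ext h0)
  have hb0' : (b : RatFunc k) ≠ 0 := fun h0 => hb0 (Subtype.ext h0)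
  have hab0' : (a : RatFunc k) + b ≠ 0 := fun h0 => hab0 (Subtype.ext (by simpa using h0))
  have h1 := (mem_Ainf_of_ne_zero ha0').mp a.2
  have h2 := (mem_Ainf_of_ne_zero hb0').mp b.2
  have h1' : (a : RatFunc k).intDegree ≠ 0 := fun h => ha ⟨ha0, h⟩
  have h2' : (b : RatFunc k).intDegree ≠ 0 := fun h => hb ⟨hb0, h⟩
  have h3 := RatFunc.intDegree_add_le hb0' hab0'
  have h4 : ((a : RatFunc k) + b).intDegree = 0 := by simpa using habd
  rcases max_cases (a : RatFunc k).intDegree (b : RatFunc k).intDegree with ⟨h, _⟩ | ⟨h, _⟩ <;>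
    omega

lemma not_isUnit_XinvAinf : ¬ IsUnit (XinvAinf : Ainf k) := by
  rw [isUnit_Ainf_iff]
  rintro ⟨_, h⟩
  simp [XinvAinf, RatFunc.intDegree_inv, RatFunc.intDegree_X] at h

instance instIsDiscreteValuationRingAinf : IsDiscreteValuationRing (Ainf k) where
  not_a_field' := by
    intro h
    have : (XinvAinf : Ainf k) ∈ IsLocalRing.maximalIdeal (Ainf k) :=
      (IsLocalRing.mem_maximalIdeal _).mpr not_isUnit_XinvAinf
    rw [h] at this
    exact XinvAinf_ne_zero ((Submodule.mem_bot _).mp this)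

instance instIsFractionRingAinf : IsFractionRing (Ainf k) (RatFunc k) where
  map_units := by
    rintro ⟨y, hy⟩
    have hy0 : y ≠ 0 := nonZeroDivisors.ne_zero hy
    exact IsUnit.mk0 _ (fun h0 => hy0 (Subtype.ext h0))
  surj := by
    intro z
    by_cases hz : z ∈ Ainf k
    · exact ⟨(⟨z, hz⟩, 1), by simp; rfl⟩
    · have hz0 : z ≠ 0 := fun h0 => hz (h0 ▸ (Ainf k).zero_mem)
      have hd : ¬ z.intDegree ≤ 0 := fun h => hz (Or.inr h)
      have hzi : z⁻¹ ∈ Ainf k := Or.inr (by rw [RatFunc.intDegree_inv]; omega)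
      have hzi0 : (⟨z⁻¹, hzi⟩ : Ainf k) ≠ 0 := fun h0 =>
        inv_ne_zero hz0 (congrArg Subtype.val h0)
      refine ⟨(1, ⟨⟨z⁻¹, hzi⟩, mem_nonZeroDivisors_of_ne_zero hzi0⟩), ?_⟩
      show z * z⁻¹ = ((1 : Ainf k) : RatFunc k)
      simp [hz0]
  exists_of_eq := by
    intro x y h
    exact ⟨1, by simpa using Subtype.ext h⟩

/-- the maximal ideal of `Ainf` is generated by `X⁻¹`. -/
lemma maximalIdeal_Ainf_eq : IsLocalRing.maximalIdeal (Ainf k) = Ideal.span {XinvAinf} := by
  apply le_antisymm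
  · intro r hr
    rw [Ideal.mem_span_singleton]
    by_cases hr0 : r = 0
    · subst hr0; exact dvd_zero _
    refine Ainf_dvd_of_le XinvAinf_ne_zero (Or.inr ?_)
    have hr0' : (r : RatFunc k) ≠ 0 := fun h0 => hr0 (Subtype.ext h0)
    have hnu : ¬ IsUnit r := (IsLocalRing.mem_maximalIdeal _).mp hr
    rw [isUnit_Ainf_iff] at hnu
    have h1 := (mem_Ainf_of_ne_zero hr0').mp r.2
    have h2 : (r : RatFunc k).intDegree ≠ 0 := fun h => hnu ⟨hr0, h⟩
    have h3 := ainfDeg_spec hr0' r.2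
    have h4 : ainfDeg ((XinvAinf : Ainf k) : RatFunc k) = 1 := by
      simp [ainfDeg, XinvAinf, RatFunc.intDegree_inv, RatFunc.intDegree_X]
    rw [h4]; omega
  · rw [Ideal.span_singleton_le_iff_mem]
    exact (IsLocalRing.mem_maximalIdeal _).mpr not_isUnit_XinvAinf

/-- constants are in `Ainf`. -/
lemma algebraMap_mem_Ainf (c : k) : algebraMap k (RatFunc k) c ∈ Ainf k := by
  by_cases hc : c = 0
  · subst hc; simp [(Ainf k).zero_mem]
  · right
    rw [show algebraMap k (RatFunc k) c = RatFunc.C c from rfl, RatFunc.intDegree_C]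

noncomputable instance instAlgebraAinf : Algebra k (Ainf k) :=
  ((algebraMap k (RatFunc k)).codRestrict (Ainf k) algebraMap_mem_Ainf).toAlgebra

instance : IsScalarTower k (Ainf k) (RatFunc k) :=
  IsScalarTower.of_algebraMap_eq fun _ => rfl

/-- a proper quotient of an algebra over a characteristic-zero field has characteristic zero. -/
lemma charZero_quotient_of_algebra (k : Type*) [Field k] [CharZero k] {R : Type*} [CommRing R]
    [Algebra k R] (I : Ideal R) (hI : I ≠ ⊤) : CharZero (R ⧸ I) := by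
  have : Nontrivial (R ⧸ I) := Ideal.Quotient.nontrivial_iff.mpr hI
  exact charZero_of_injective_algebraMap (algebraMap k (R ⧸ I)).injective

end Fermat.Agent.ProgramR.Alg
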