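/-
Program R, package R2b (helper3): additive ("order") form of the `P`-adic valuation of a
Dedekind domain, to make valuation arithmetic `omega`-friendly.
-/
import Mathlib

set_option autoImplicit false

namespace Fermat.Agent.ProgramR.Alg

open IsDedekindDomain WithZero

variable {B : Type*} [CommRing B] [IsDedekindDomain B] {L : Type*} [Field L] [Algebra B L]
  [IsFractionRing B L]

/-- additive `P`-adic order of `x ∈ L` (junk value `0` at `x = 0`). -/
noncomputable def ordV (P : HeightOneSpectrum B) (x : L) : ℤ := -(log (P.valuation L x))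

lemma valuation_ne_zero' (P : HeightOneSpectrum B) {x : L} (hx : x ≠ 0) :
    P.valuation L x ≠ 0 := (Valuation.ne_zero_iff _).mpr hx

lemma ordV_mul (P : HeightOneSpectrum B) {x y : L} (hx : x ≠ 0) (hy : y ≠ 0) :
    ordV P (x * y) = ordV P x + ordV P y := by
  simp only [ordV, map_mul]
  rw [log_mul (valuation_ne_zero' P hx) (valuation_ne_zero' P hy)]
  ring

lemma ordV_one (P : HeightOneSpectrum B) : ordV P (1 : L) = 0 := by simp [ordV]

lemma ordV_inv (P : HeightOneSpectrum B) (x : L) : ordV P x⁻¹ = -ordV P x := by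
  simp [ordV, log_inv]

lemma valuation_le_exp_neg_iff (P : HeightOneSpectrum B) {x : L} (hx : x ≠ 0) (m : ℤ) :
    P.valuation L x ≤ exp (-m) ↔ m ≤ ordV P x := by
  rw [← log_le_iff_le_exp (valuation_ne_zero' P hx), ordV]
  omega

lemma valuation_le_one_iff (P : HeightOneSpectrum B) {x : L} (hx : x ≠ 0) :
    P.valuation L x ≤ 1 ↔ 0 ≤ ordV P x := by
  have := valuation_le_exp_neg_iff P hx 0
  simpa using this

lemma valuation_lt_one_iff (P : HeightOneSpectrum B) {x : L} (hx : x ≠ 0) :
    P.valuation L x < 1 ↔ 1 ≤ ordV P x := by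
  rw [← exp_zero (M := ℤ), ← log_lt_iff_lt_exp (valuation_ne_zero' P hx), ordV]
  omega

lemma le_ordV_algebraMap_iff (P : HeightOneSpectrum B) {b : B} (hb : b ≠ 0) (n : ℕ) :
    (n : ℤ) ≤ ordV P (algebraMap B L b) ↔ b ∈ P.asIdeal ^ n := by
  have hb' : algebraMap B L b ≠ 0 := by
    simpa using (IsFractionRing.injective B L).ne hb
  rw [← valuation_le_exp_neg_iff P hb', HeightOneSpectrum.valuation_of_algebraMap,
    HeightOneSpectrum.intValuation_le_pow_iff_mem]

lemma ordV_algebraMap_nonneg (P : HeightOneSpectrum B) {b : B} (hb : b ≠ 0) :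
    0 ≤ ordV P (algebraMap B L b) := by
  have := (le_ordV_algebraMap_iff (L := L) P hb 0).mpr (by simp)
  simpa using this

/-- an element of `L` with nonnegative order at every prime lies in `B`. -/
lemma mem_range_of_forall_ordV_nonneg {x : L} (hx : x ≠ 0)
    (h : ∀ P : HeightOneSpectrum B, 0 ≤ ordV P x) : x ∈ (algebraMap B L).range :=
  HeightOneSpectrum.mem_integers_of_valuation_le_one L x
    fun P => (valuation_le_one_iff P hx).mpr (h P)

end Fermat.Agent.ProgramR.Alg
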