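/-
Program R, package R2b (helper3): valuation description of the trace dual `B^∨ = 𝔇⁻¹`
of a tamely ramified extension of Dedekind domains `B / A` (`A` a PID, residue characteristic 0):
`h ∈ B^∨  ↔  ∀ P, ord_P(h · t_P) ≥ 1`, where `t_P` is a generator of `P ∩ A`.
-/
import Mathlib
import Fermat.Agent.ProgramR.Alg.OrdVal
import Fermat.Agent.ProgramR.Alg.TameDifferent

set_option autoImplicit false

namespace Fermat.Agent.ProgramR.Alg

open IsDedekindDomain Module nonZeroDivisors

attribute [local instance] FractionRing.liftAlgebra FractionRing.isScalarTower_liftAlgebra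

section

variable (A K L B : Type*) [CommRing A] [Field K] [CommRing B] [Field L]
  [Algebra A K] [Algebra B L] [Algebra A B] [Algebra K L] [Algebra A L]
  [IsScalarTower A K L] [IsScalarTower A B L]
  [IsDedekindDomain A] [IsDedekindDomain B] [IsFractionRing A K] [IsFractionRing B L]
  [IsTorsionFree A B] [Module.Finite A B] [FiniteDimensional K L] [Algebra.IsSeparable K L]

/-- membership in the trace dual of `B` in terms of the different ideal. -/
lemma mem_traceDual_one_iff_forall_mem_different (h : L) :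
    h ∈ Submodule.traceDual A K (1 : Submodule B L) ↔
      ∀ d ∈ differentIdeal A B, h * algebraMap B L d ∈ (algebraMap B L).range := by
  have hne : (differentIdeal A B : Ideal B) ≠ ⊥ := by
    have H : RingHom.comp (algebraMap (FractionRing A) (FractionRing B))
        ↑(FractionRing.algEquiv A K).symm.toRingEquiv =
          RingHom.comp ↑(FractionRing.algEquiv B L).symm.toRingEquiv (algebraMap K L) := by
      apply IsLocalization.ringHom_ext A⁰
      ext
      simp only [RingHom.coe_comp, RingHom.coe_coe,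
        AlgEquiv.coe_ringEquiv, Function.comp_apply, AlgEquiv.commutes,
        ← IsScalarTower.algebraMap_apply]
      rw [IsScalarTower.algebraMap_apply A B L, AlgEquiv.commutes,
        ← IsScalarTower.algebraMap_apply]
    have : Algebra.IsSeparable (FractionRing A) (FractionRing B) :=
      Algebra.IsSeparable.of_equiv_equiv _ _ H
    exact differentIdeal_ne_bot
  have hne' : ((differentIdeal A B : Ideal B) : FractionalIdeal B⁰ L) ≠ 0 := by
    simpa using hne
  have h1 : (FractionalIdeal.dual A K (1 : FractionalIdeal B⁰ L)) =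
      ((differentIdeal A B : Ideal B) : FractionalIdeal B⁰ L)⁻¹ := by
    rw [coeIdeal_differentIdeal A K L B, inv_inv]
  have h2 : h ∈ Submodule.traceDual A K (1 : Submodule B L) ↔
      h ∈ FractionalIdeal.dual A K (1 : FractionalIdeal B⁰ L) := by
    rw [← FractionalIdeal.mem_coe, FractionalIdeal.coe_dual_one]
  rw [h2, h1, FractionalIdeal.mem_inv_iff hne']
  constructor
  · intro H d hd
    have := H (algebraMap B L d) ((FractionalIdeal.mem_coeIdeal _).mpr ⟨d, hd, rfl⟩)
    rw [FractionalIdeal.mem_one_iff] at this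
    obtain ⟨b, hb⟩ := this
    exact ⟨b, hb⟩
  · intro H y hy
    obtain ⟨d, hd, rfl⟩ := (FractionalIdeal.mem_coeIdeal _).mp hy
    obtain ⟨b, hb⟩ := H d hd
    rw [FractionalIdeal.mem_one_iff]
    exact ⟨b, hb⟩

include K L in
omit [FiniteDimensional K L] in
lemma isSeparable_fractionRing_aux :
    Algebra.IsSeparable (FractionRing A) (FractionRing B) := by
  have H : RingHom.comp (algebraMap (FractionRing A) (FractionRing B))
      ↑(FractionRing.algEquiv A K).symm.toRingEquiv =
        RingHom.comp ↑(FractionRing.algEquiv B L).symm.toRingEquiv (algebraMap K L) := by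
    apply IsLocalization.ringHom_ext A⁰
    ext
    simp only [RingHom.coe_comp, RingHom.coe_coe,
      AlgEquiv.coe_ringEquiv, Function.comp_apply, AlgEquiv.commutes,
      ← IsScalarTower.algebraMap_apply]
    rw [IsScalarTower.algebraMap_apply A B L, AlgEquiv.commutes,
      ← IsScalarTower.algebraMap_apply]
  exact Algebra.IsSeparable.of_equiv_equiv _ _ H

variable {A B}

include K in
omit [FiniteDimensional K L] in
/-- Exact exponent of the different at a tame prime: if `P ∩ A = (t)` and `n = ord_P(t)`, then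
`P^(n-1) ∣ 𝔇` and `¬ P^n ∣ 𝔇`. -/
lemma different_exact_exponent (P : HeightOneSpectrum B) (t : A)
    (hPt : P.asIdeal.under A = Ideal.span {t}) [CharZero (A ⧸ P.asIdeal.under A)]
    (n : ℕ) (hn : (n : ℤ) = ordV P (algebraMap B L (algebraMap A B t))) :
    P.asIdeal ^ (n - 1) ∣ differentIdeal A B ∧ ¬ P.asIdeal ^ n ∣ differentIdeal A B := by
  have hsep : Algebra.IsSeparable (FractionRing A) (FractionRing B) :=
    isSeparable_fractionRing_aux A K L B
  have : Algebra.IsIntegral A B := inferInstance
  have hp0 : P.asIdeal.under A ≠ ⊥ := by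
    have := P.ne_bot
    exact mt Ideal.eq_bot_of_comap_eq_bot this
  have hpmax : (P.asIdeal.under A).IsMaximal := Ideal.IsPrime.isMaximal inferInstance hp0
  have ht0 : t ≠ 0 := by
    rintro rfl
    apply hp0
    rw [hPt]; simp
  have htB0 : algebraMap A B t ≠ 0 := by
    simpa using (FaithfulSMul.algebraMap_injective A B).ne ht0
  have hmap : (P.asIdeal.under A).map (algebraMap A B) = Ideal.span {algebraMap A B t} := by
    rw [hPt, Ideal.map_span, Set.image_singleton]
  have hmem : ∀ m : ℕ, algebraMap A B t ∈ P.asIdeal ^ m ↔ m ≤ n := by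
    intro m
    rw [← le_ordV_algebraMap_iff (L := L) P htB0 m, ← hn]
    exact_mod_cast Iff.rfl
  have hdvd : ∀ m : ℕ, P.asIdeal ^ m ∣ (P.asIdeal.under A).map (algebraMap A B) ↔ m ≤ n := by
    intro m
    rw [Ideal.dvd_iff_le, hmap, Ideal.span_singleton_le_iff_mem, hmem]
  have hn1 : 1 ≤ n := by
    rw [← hmem 1, pow_one]
    have : t ∈ P.asIdeal.under A := by rw [hPt]; exact Ideal.mem_span_singleton_self t
    exact this
  refine ⟨pow_sub_one_dvd_differentIdeal A P.asIdeal n hp0 ((hdvd n).mpr le_rfl), ?_⟩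
  obtain ⟨Q, hQ⟩ := (hdvd n).mpr le_rfl
  have hPQ : ¬ P.asIdeal ∣ Q := by
    rintro ⟨Q', rfl⟩
    have : P.asIdeal ^ (n + 1) ∣ (P.asIdeal.under A).map (algebraMap A B) :=
      ⟨Q', by rw [hQ, pow_succ, mul_assoc]⟩
    have := (hdvd (n + 1)).mp this
    omega
  have hPmax : P.asIdeal.IsMaximal := P.isMaximal
  have hcop : IsCoprime P.asIdeal Q := by
    rw [Ideal.isCoprime_iff_sup_eq]
    by_contra hne
    have hle : P.asIdeal ⊔ Q ≤ P.asIdeal := by
      have := hPmax.eq_of_le hne le_sup_left
      exact this.ge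
    exact hPQ (Ideal.dvd_iff_le.mpr (le_sup_right.trans hle))
  have hcop' : IsCoprime (P.asIdeal ^ n) Q := hcop.pow_left
  have hne_top : P.asIdeal ^ n ≠ ⊤ := by
    intro h
    have h1 : (1 : B) ∈ P.asIdeal ^ n := by rw [h]; trivial
    have := Ideal.pow_le_self (I := P.asIdeal) (by omega : n ≠ 0) h1
    exact hPmax.ne_top ((Ideal.eq_top_iff_one _).mpr this)
  exact not_dvd_differentIdeal_of_isCoprime_of_charZero A (P.asIdeal ^ n) Q hne_top hcop' hQ.symm

omit [FiniteDimensional K L] [Algebra.IsSeparable K L]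
  [IsFractionRing A K] [IsScalarTower A K L] [IsScalarTower A B L] [Algebra A L] [Algebra K L]
  [Algebra A K] in
lemma algebraMap_generator_ne_zero (P : HeightOneSpectrum B) (t : A)
    (hPt : P.asIdeal.under A = Ideal.span {t}) :
    algebraMap B L (algebraMap A B t) ≠ 0 ∧ 0 ≤ ordV P (algebraMap B L (algebraMap A B t)) := by
  have hinj : Function.Injective (algebraMap B L) := IsFractionRing.injective B L
  have hp0 : P.asIdeal.under A ≠ ⊥ := mt Ideal.eq_bot_of_comap_eq_bot P.ne_bot
  have ht0 : t ≠ 0 := by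
    rintro rfl
    apply hp0
    rw [hPt]; simp
  have htB0 : algebraMap A B t ≠ 0 := by
    simpa using (FaithfulSMul.algebraMap_injective A B).ne ht0
  exact ⟨by simpa using hinj.ne htB0, ordV_algebraMap_nonneg P htB0⟩

/-- trace dual ⇒ valuation conditions. -/
theorem forall_ordV_of_mem_traceDual_one
    [hchar : ∀ P : HeightOneSpectrum B, CharZero (A ⧸ P.asIdeal.under A)] {h : L} (hh : h ≠ 0)
    (H : h ∈ Submodule.traceDual A K (1 : Submodule B L))
    (P : HeightOneSpectrum B) (t : A) (hPt : P.asIdeal.under A = Ideal.span {t}) :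
    1 ≤ ordV P (h * algebraMap B L (algebraMap A B t)) := by
  rw [mem_traceDual_one_iff_forall_mem_different A K L B] at H
  have hinj : Function.Injective (algebraMap B L) := IsFractionRing.injective B L
  obtain ⟨htL0, htnn⟩ := algebraMap_generator_ne_zero (L := L) P t hPt
  obtain ⟨n, hn⟩ := Int.eq_ofNat_of_zero_le htnn
  have hE := (different_exact_exponent K (L := L) P t hPt n hn.symm).2
  rw [Ideal.dvd_iff_le] at hE
  obtain ⟨d, hd, hdn⟩ := SetLike.not_le_iff_exists.mp hE
  have hd0 : d ≠ 0 := by
    rintro rfl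
    exact hdn (Ideal.zero_mem _)
  have hdL0 : algebraMap B L d ≠ 0 := by simpa using hinj.ne hd0
  have h1 : ¬ ((n : ℤ) ≤ ordV P (algebraMap B L d)) := by
    rw [le_ordV_algebraMap_iff P hd0]; exact hdn
  obtain ⟨b, hb⟩ := H d hd
  have hb0 : b ≠ 0 := by
    rintro rfl
    rw [map_zero] at hb
    exact mul_ne_zero hh hdL0 hb.symm
  have h2 : 0 ≤ ordV P (h * algebraMap B L d) := by
    rw [← hb]; exact ordV_algebraMap_nonneg P hb0
  rw [ordV_mul P hh hdL0] at h2
  rw [ordV_mul P hh htL0, hn]
  omega

/-- valuation conditions ⇒ trace dual. -/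
theorem mem_traceDual_one_of_forall_exists
    [hchar : ∀ P : HeightOneSpectrum B, CharZero (A ⧸ P.asIdeal.under A)] {h : L} (hh : h ≠ 0)
    (H : ∀ P : HeightOneSpectrum B, ∃ t : A, P.asIdeal.under A = Ideal.span {t} ∧
        1 ≤ ordV P (h * algebraMap B L (algebraMap A B t))) :
    h ∈ Submodule.traceDual A K (1 : Submodule B L) := by
  rw [mem_traceDual_one_iff_forall_mem_different A K L B]
  have hinj : Function.Injective (algebraMap B L) := IsFractionRing.injective B L
  intro d hd
  by_cases hd0 : d = 0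
  · subst hd0; exact ⟨0, by simp⟩
  have hdL0 : algebraMap B L d ≠ 0 := by simpa using hinj.ne hd0
  refine mem_range_of_forall_ordV_nonneg (mul_ne_zero hh hdL0) fun P => ?_
  obtain ⟨t, hPt, h2⟩ := H P
  obtain ⟨htL0, htnn⟩ := algebraMap_generator_ne_zero (L := L) P t hPt
  obtain ⟨n, hn⟩ := Int.eq_ofNat_of_zero_le htnn
  have hE := (different_exact_exponent K (L := L) P t hPt n hn.symm).1
  rw [Ideal.dvd_iff_le] at hE
  have h1 : ((n - 1 : ℕ) : ℤ) ≤ ordV P (algebraMap B L d) := by
    rw [le_ordV_algebraMap_iff P hd0]; exact hE hd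
  rw [ordV_mul P hh htL0, hn] at h2
  rw [ordV_mul P hh hdL0]
  omega

/-- **Valuation description of the trace dual** (tame case, `A` a PID):
`h ∈ B^∨ ↔ ∀ P, ord_P (h · t_P) ≥ 1` where `t_P` generates `P ∩ A`. -/
theorem mem_traceDual_one_iff_forall_ordV [IsPrincipalIdealRing A]
    [hchar : ∀ P : HeightOneSpectrum B, CharZero (A ⧸ P.asIdeal.under A)] {h : L} (hh : h ≠ 0) :
    h ∈ Submodule.traceDual A K (1 : Submodule B L) ↔
      ∀ (P : HeightOneSpectrum B) (t : A), P.asIdeal.under A = Ideal.span {t} →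
        1 ≤ ordV P (h * algebraMap B L (algebraMap A B t)) := by
  constructor
  · exact fun H P t hPt => forall_ordV_of_mem_traceDual_one (K := K) (L := L) hh H P t hPt
  · intro H
    refine mem_traceDual_one_of_forall_exists (K := K) (L := L) hh fun P => ?_
    obtain ⟨t, ht⟩ := (IsPrincipalIdealRing.principal (P.asIdeal.under A)).principal
    exact ⟨t, ht, H P t ht⟩

end

end Fermat.Agent.ProgramR.Alg
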