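/-
Program R, package R2b (helper3): consumer-facing form of the genus computation.
Wrapper around helper7's lattice theorem `RR.finrank_differentialSubspace`.
-/
import Mathlib
import Fermat.Agent.ProgramR.Alg.TraceDual
import Fermat.Agent.ProgramR.Alg.AinfDVR
import Fermat.Agent.ProgramR.RR.Genus

set_option autoImplicit false

namespace Fermat.Agent.ProgramR.Alg

open Polynomial IsDedekindDomain Module nonZeroDivisors Fermat.Agent.ProgramR.RR

section Basis

variable {k : Type*} [Field k] (A : Type*) [CommRing A] [IsDomain A] [IsPrincipalIdealRing A]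
  [Algebra A (RatFunc k)] [IsFractionRing A (RatFunc k)]
  {F : Type*} [Field F] [Algebra (RatFunc k) F] [FiniteDimensional (RatFunc k) F]
  [Algebra.IsSeparable (RatFunc k) F]
  (B : Type*) [CommRing B] [IsDedekindDomain B] [Algebra A B] [Module.Finite A B]
  [IsTorsionFree A B] [Algebra B F] [IsFractionRing B F] [Algebra A F]
  [IsScalarTower A (RatFunc k) F] [IsScalarTower A B F]

/-- a `K`-basis of `F` whose `A`-lattice is (the image of) `B`. -/
theorem exists_basis_latt_eq_range :
    ∃ u : Module.Basis (Fin (finrank (RatFunc k) F)) (RatFunc k) F,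
      Latt (algebraMap A (RatFunc k)).range u = Set.range (algebraMap B F) := by
  classical
  have hloc : IsLocalization (Algebra.algebraMapSubmonoid B A⁰) F :=
    IsIntegralClosure.isLocalization A (RatFunc k) F B
  let b := Module.Free.chooseBasis A B
  let u0 := b.localizationLocalization (RatFunc k) A⁰ F
  have hcard : Fintype.card (Module.Free.ChooseBasisIndex A B) = finrank (RatFunc k) F := by
    rw [← Module.finrank_eq_card_basis u0]
  let e := Fintype.equivFinOfCardEq hcard
  let u := u0.reindex e
  refine ⟨u, ?_⟩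
  ext x
  constructor
  · intro hx
    have hx' : ∀ i, ∃ a : A, algebraMap A (RatFunc k) a = u.repr x i := fun i => hx i
    choose a ha using hx'
    refine ⟨∑ i, a i • b (e.symm i), ?_⟩
    rw [map_sum]
    conv_rhs => rw [← u.sum_repr x]
    refine Finset.sum_congr rfl fun i _ => ?_
    rw [← ha i, Algebra.smul_def, map_mul, ← IsScalarTower.algebraMap_apply A B F,
      IsScalarTower.algebraMap_apply A (RatFunc k) F, Algebra.smul_def]
    congr 1
    simp [u, u0, Module.Basis.localizationLocalization_apply]
  · rintro ⟨y, rfl⟩ i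
    refine ⟨b.repr y (e.symm i), ?_⟩
    simp [u, u0, Module.Basis.localizationLocalization_repr_algebraMap]

end Basis

section MaxIdeal

variable {k : Type*} [Field k]

lemma span_X_sub_C_isMaximal (c : k) : (Ideal.span {X - C c} : Ideal k[X]).IsMaximal := by
  rw [← Polynomial.ker_evalRingHom c]
  exact RingHom.ker_isMaximal_of_surjective _ (fun y => ⟨C y, by simp⟩)

lemma exists_eq_span_X_sub_C [IsAlgClosed k] (p : Ideal k[X]) [hp : p.IsMaximal] (hp0 : p ≠ ⊥) :
    ∃ c : k, p = Ideal.span {X - C c} := by
  obtain ⟨t, ht⟩ := (IsPrincipalIdealRing.principal p).principal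
  have ht' : p = Ideal.span {t} := ht
  have ht0 : t ≠ 0 := by
    rintro rfl
    apply hp0; rw [ht']; simp
  have hirr : Irreducible t := by
    have : (Ideal.span {t} : Ideal k[X]).IsPrime := ht' ▸ hp.isPrime
    exact ((Ideal.span_singleton_prime ht0).mp this).irreducible
  have hdeg := IsAlgClosed.degree_eq_one_of_irreducible k hirr
  obtain ⟨c, hc⟩ := IsAlgClosed.exists_root t (by rw [hdeg]; exact one_ne_zero)
  refine ⟨c, ?_⟩
  have hle : p ≤ Ideal.span {X - C c} := by
    rw [ht', Ideal.span_singleton_le_iff_mem, Ideal.mem_span_singleton]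
    exact dvd_iff_isRoot.mpr hc
  exact hp.eq_of_le (span_X_sub_C_isMaximal c).ne_top hle

end MaxIdeal

section FiniteChart

variable (k : Type*) [Field k] [IsAlgClosed k] [CharZero k]
  (F : Type*) [Field F] [Algebra (RatFunc k) F] [FiniteDimensional (RatFunc k) F]
  [Algebra k F] [IsScalarTower k (RatFunc k) F]
  (B : Type*) [CommRing B] [IsDedekindDomain B] [Algebra k[X] B] [Module.Finite k[X] B]
  [IsTorsionFree k[X] B] [Algebra B F] [IsFractionRing B F] [Algebra k[X] F]
  [IsScalarTower k[X] (RatFunc k) F] [IsScalarTower k[X] B F]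

/-- the coordinate function `x ∈ F`. -/
noncomputable def xF : F := algebraMap (RatFunc k) F RatFunc.X

omit [IsAlgClosed k] [CharZero k] [FiniteDimensional (RatFunc k) F] [IsDedekindDomain B]
  [Module.Finite k[X] B] [IsTorsionFree k[X] B] [IsFractionRing B F] in
lemma algebraMap_X_sub_C (c : k) :
    algebraMap B F (algebraMap k[X] B (X - C c)) = xF k F - algebraMap k F c := by
  rw [← IsScalarTower.algebraMap_apply k[X] B F, IsScalarTower.algebraMap_apply k[X] (RatFunc k) F,
    map_sub, RatFunc.algebraMap_X, RatFunc.algebraMap_C, map_sub, xF,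
    IsScalarTower.algebraMap_apply k (RatFunc k) F]
  rfl

/-- finite-chart condition: `h·(x - c)` vanishes at every prime over `x = c`. -/
def FinCond (h : F) : Prop :=
  ∀ (P : HeightOneSpectrum B) (c : k), algebraMap k[X] B (X - C c) ∈ P.asIdeal →
    P.valuation F (h * (xF k F - algebraMap k F c)) < 1

lemma charZero_quotient_under (P : HeightOneSpectrum B) :
    CharZero (k[X] ⧸ P.asIdeal.under k[X]) :=
  charZero_quotient_of_algebra k _ (Ideal.IsPrime.ne_top inferInstance)

theorem mem_traceDual_iff_finCond {h : F} (hh : h ≠ 0) :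
    h ∈ Submodule.traceDual k[X] (RatFunc k) (1 : Submodule B F) ↔ FinCond k F B h := by
  have : ∀ P : HeightOneSpectrum B, CharZero (k[X] ⧸ P.asIdeal.under k[X]) :=
    charZero_quotient_under k B
  have hne : ∀ (P : HeightOneSpectrum B) (c : k), algebraMap k[X] B (X - C c) ∈ P.asIdeal →
      P.asIdeal.under k[X] = Ideal.span {X - C c} := by
    intro P c hc
    have hle : Ideal.span {X - C c} ≤ P.asIdeal.under k[X] := by
      rw [Ideal.span_singleton_le_iff_mem]; exact hc
    exact ((span_X_sub_C_isMaximal c).eq_of_le (Ideal.IsPrime.ne_top inferInstance) hle).symm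
  constructor
  · intro H P c hc
    have h1 := forall_ordV_of_mem_traceDual_one (K := RatFunc k) (L := F) hh H P (X - C c)
      (hne P c hc)
    have h2 := (algebraMap_generator_ne_zero (L := F) P (X - C c) (hne P c hc)).1
    rw [algebraMap_X_sub_C] at h1 h2
    exact (valuation_lt_one_iff P (mul_ne_zero hh h2)).mpr h1
  · intro H
    refine mem_traceDual_one_of_forall_exists (K := RatFunc k) (L := F) hh fun P => ?_
    have hp0 : P.asIdeal.under k[X] ≠ ⊥ := mt Ideal.eq_bot_of_comap_eq_bot P.ne_bot
    have : (P.asIdeal.under k[X]).IsMaximal := Ideal.IsPrime.isMaximal inferInstance hp0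
    obtain ⟨c, hc⟩ := exists_eq_span_X_sub_C (P.asIdeal.under k[X]) hp0
    refine ⟨X - C c, hc, ?_⟩
    have hmem : algebraMap k[X] B (X - C c) ∈ P.asIdeal := by
      have : X - C c ∈ P.asIdeal.under k[X] := by
        rw [hc]; exact Ideal.mem_span_singleton_self _
      exact this
    have h1 := H P c hmem
    have h2 := (algebraMap_generator_ne_zero (L := F) P (X - C c) hc).1
    rw [algebraMap_X_sub_C] at h2 ⊢
    exact (valuation_lt_one_iff P (mul_ne_zero hh h2)).mp h1

end FiniteChart

section InfiniteChart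

variable (k : Type*) [Field k] [CharZero k]
  (F : Type*) [Field F] [Algebra (RatFunc k) F] [FiniteDimensional (RatFunc k) F]
  [Algebra k F] [IsScalarTower k (RatFunc k) F]
  (Binf : Type*) [CommRing Binf] [IsDedekindDomain Binf] [Algebra (Ainf k) Binf]
  [Module.Finite (Ainf k) Binf] [IsTorsionFree (Ainf k) Binf] [Algebra Binf F]
  [IsFractionRing Binf F] [Algebra (Ainf k) F] [IsScalarTower (Ainf k) (RatFunc k) F]
  [IsScalarTower (Ainf k) Binf F]

/-- condition at infinity: `h·x` vanishes at every prime of `B∞`. -/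
def InfCond (h : F) : Prop :=
  ∀ P : HeightOneSpectrum Binf, P.valuation F (h * xF k F) < 1

lemma charZero_quotient_under_inf (P : HeightOneSpectrum Binf) :
    CharZero ((Ainf k) ⧸ P.asIdeal.under (Ainf k)) :=
  charZero_quotient_of_algebra k _ (Ideal.IsPrime.ne_top inferInstance)

omit [CharZero k] [FiniteDimensional (RatFunc k) F] [Algebra k F] [IsScalarTower k (RatFunc k) F] in
lemma under_eq_span_Xinv (P : HeightOneSpectrum Binf) :
    P.asIdeal.under (Ainf k) = Ideal.span {XinvAinf} := by
  have hp0 : P.asIdeal.under (Ainf k) ≠ ⊥ := mt Ideal.eq_bot_of_comap_eq_bot P.ne_bot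
  have : (P.asIdeal.under (Ainf k)).IsMaximal := Ideal.IsPrime.isMaximal inferInstance hp0
  rw [← maximalIdeal_Ainf_eq]
  exact IsLocalRing.eq_maximalIdeal this

omit [CharZero k] [FiniteDimensional (RatFunc k) F] [Algebra k F] [IsScalarTower k (RatFunc k) F]
  [IsDedekindDomain Binf] [Module.Finite (Ainf k) Binf] [IsTorsionFree (Ainf k) Binf]
  [IsFractionRing Binf F] in
lemma algebraMap_XinvAinf :
    algebraMap Binf F (algebraMap (Ainf k) Binf XinvAinf) =
      algebraMap (RatFunc k) F (RatFunc.X)⁻¹ := by
  rw [← IsScalarTower.algebraMap_apply (Ainf k) Binf F,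
    IsScalarTower.algebraMap_apply (Ainf k) (RatFunc k) F]
  rfl

theorem smul_mem_traceDual_iff_infCond {h : F} (hh : h ≠ 0) :
    ((RatFunc.X : RatFunc k) ^ 2) • h ∈
      Submodule.traceDual (Ainf k) (RatFunc k) (1 : Submodule Binf F) ↔ InfCond k F Binf h := by
  have : ∀ P : HeightOneSpectrum Binf, CharZero ((Ainf k) ⧸ P.asIdeal.under (Ainf k)) :=
    charZero_quotient_under_inf k Binf
  have hX : (RatFunc.X : RatFunc k) ≠ 0 := RatFunc.X_ne_zero
  have hg : ((RatFunc.X : RatFunc k) ^ 2) • h ≠ 0 :=
    smul_ne_zero (pow_ne_zero 2 hX) hh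
  have hxF : xF k F ≠ 0 := by
    simpa [xF] using hX
  have key : ((RatFunc.X : RatFunc k) ^ 2) • h *
      algebraMap Binf F (algebraMap (Ainf k) Binf XinvAinf) = h * xF k F := by
    rw [algebraMap_XinvAinf, Algebra.smul_def, xF, map_pow, map_inv₀]
    have : algebraMap (RatFunc k) F RatFunc.X ≠ 0 := by simpa using hX
    field_simp
  constructor
  · intro H P
    have h1 := forall_ordV_of_mem_traceDual_one (K := RatFunc k) (L := F) hg H P XinvAinf
      (under_eq_span_Xinv k Binf P)
    rw [key] at h1
    exact (valuation_lt_one_iff P (mul_ne_zero hh hxF)).mpr h1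
  · intro H
    refine mem_traceDual_one_of_forall_exists (K := RatFunc k) (L := F) hg fun P => ?_
    refine ⟨XinvAinf, under_eq_span_Xinv k Binf P, ?_⟩
    rw [key]
    exact (valuation_lt_one_iff P (mul_ne_zero hh hxF)).mp (H P)

end InfiniteChart

section Assembly

variable (k : Type*) [Field k] [IsAlgClosed k] [CharZero k]
  (F : Type*) [Field F] [Algebra (RatFunc k) F] [FiniteDimensional (RatFunc k) F]
  [Algebra k F] [IsScalarTower k (RatFunc k) F]
  (B : Type*) [CommRing B] [IsDedekindDomain B] [Algebra k[X] B] [Module.Finite k[X] B]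
  [IsTorsionFree k[X] B] [Algebra B F] [IsFractionRing B F] [Algebra k[X] F]
  [IsScalarTower k[X] (RatFunc k) F] [IsScalarTower k[X] B F]
  (Binf : Type*) [CommRing Binf] [IsDedekindDomain Binf] [Algebra (Ainf k) Binf]
  [Module.Finite (Ainf k) Binf] [IsTorsionFree (Ainf k) Binf] [Algebra Binf F]
  [IsFractionRing Binf F] [Algebra (Ainf k) F] [IsScalarTower (Ainf k) (RatFunc k) F]
  [IsScalarTower (Ainf k) Binf F]

omit [IsAlgClosed k] [CharZero k] in
lemma range_algebraMap_Ainf : (algebraMap (Ainf k) (RatFunc k)).range = Ainf k := by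
  ext x
  constructor
  · rintro ⟨y, rfl⟩; exact y.2
  · intro hx; exact ⟨⟨x, hx⟩, rfl⟩

omit [IsAlgClosed k] [CharZero k] [FiniteDimensional (RatFunc k) F] [IsDedekindDomain B]
  [Module.Finite k[X] B] [IsTorsionFree k[X] B] [IsFractionRing B F] in
lemma algebraMap_const_mem_range (c : k) : algebraMap k F c ∈ Set.range (algebraMap B F) := by
  refine ⟨algebraMap k[X] B (C c), ?_⟩
  rw [← IsScalarTower.algebraMap_apply k[X] B F, IsScalarTower.algebraMap_apply k[X] (RatFunc k) F,
    RatFunc.algebraMap_C, IsScalarTower.algebraMap_apply k (RatFunc k) F]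
  rfl

omit [IsAlgClosed k] [CharZero k] [FiniteDimensional (RatFunc k) F] [IsDedekindDomain Binf]
  [Module.Finite (Ainf k) Binf] [IsTorsionFree (Ainf k) Binf] [IsFractionRing Binf F] in
lemma algebraMap_const_mem_range_inf (c : k) :
    algebraMap k F c ∈ Set.range (algebraMap Binf F) := by
  refine ⟨algebraMap (Ainf k) Binf (algebraMap k (Ainf k) c), ?_⟩
  rw [← IsScalarTower.algebraMap_apply (Ainf k) Binf F,
    IsScalarTower.algebraMap_apply (Ainf k) (RatFunc k) F,
    IsScalarTower.algebraMap_apply k (RatFunc k) F]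
  rfl

/-- **Theorem A** (consumer form), modulo the two discriminant-degree computations `hfin`, `hinf`
(package b3). -/
theorem two_mul_finrank_holDiff_of_discr
    (hfin : ∀ u : Module.Basis (Fin (finrank (RatFunc k) F)) (RatFunc k) F,
      Latt (Apoly k) u = Set.range (algebraMap B F) →
      (Algebra.discr (RatFunc k) u).intDegree = ∑ᶠ c : k, ((finrank (RatFunc k) F : ℤ) -
        Nat.card {P : HeightOneSpectrum B // algebraMap k[X] B (X - C c) ∈ P.asIdeal}))
    (hinf : ∀ v : Module.Basis (Fin (finrank (RatFunc k) F)) (RatFunc k) F,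
      Latt (Ainf k) v = Set.range (algebraMap Binf F) →
      -(Algebra.discr (RatFunc k) v).intDegree =
        (finrank (RatFunc k) F : ℤ) - Nat.card (HeightOneSpectrum Binf))
    (hconst : ∀ h : F, h ∈ Set.range (algebraMap B F) → h ∈ Set.range (algebraMap Binf F) →
      h ∈ Set.range (algebraMap k F)) :
    ∃ W : Submodule k F, (∀ h, h ∈ W ↔ FinCond k F B h ∧ InfCond k F Binf h) ∧
      2 * (finrank k W : ℤ) = 2 - 2 * (finrank (RatFunc k) F : ℤ)
        + ∑ᶠ c : k, ((finrank (RatFunc k) F : ℤ) -
            Nat.card {P : HeightOneSpectrum B // algebraMap k[X] B (X - C c) ∈ P.asIdeal})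
        + ((finrank (RatFunc k) F : ℤ) - Nat.card (HeightOneSpectrum Binf)) := by
  obtain ⟨u, hu⟩ := exists_basis_latt_eq_range (k := k) k[X] (F := F) B
  obtain ⟨v, hv⟩ := exists_basis_latt_eq_range (k := k) (Ainf k) (F := F) Binf
  have hu' : Latt (Apoly k) u = Set.range (algebraMap B F) := hu
  have hv' : Latt (Ainf k) v = Set.range (algebraMap Binf F) := by
    rw [← hv, range_algebraMap_Ainf]
  refine ⟨differentialSubspace u v, ?_, ?_⟩
  · intro h
    by_cases hh : h = 0
    · subst hh
      refine ⟨fun _ => ⟨fun P c _ => by simp, fun P => by simp⟩, fun _ => Submodule.zero_mem _⟩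
    rw [mem_differentialSubspace, ← mem_traceDual_iff_finCond k F B hh,
      ← smul_mem_traceDual_iff_infCond k F Binf hh]
    refine and_congr ?_ ?_
    · rw [Submodule.mem_traceDual]
      constructor
      · intro H a ha
        rw [Submodule.mem_one] at ha
        obtain ⟨y, rfl⟩ := ha
        rw [Algebra.traceForm_apply]
        exact H _ (hu' ▸ ⟨y, rfl⟩)
      · intro H x hx
        rw [hu'] at hx
        obtain ⟨y, rfl⟩ := hx
        have := H (algebraMap B F y) (Submodule.mem_one.mpr ⟨y, rfl⟩)
        rwa [Algebra.traceForm_apply] at this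
    · rw [Submodule.mem_traceDual]
      have e : ∀ x : F, Algebra.trace (RatFunc k) F (((RatFunc.X : RatFunc k) ^ 2 • h) * x) =
          (RatFunc.X : RatFunc k) ^ 2 * Algebra.trace (RatFunc k) F (h * x) := by
        intro x
        rw [smul_mul_assoc, map_smul, smul_eq_mul]
      constructor
      · intro H a ha
        rw [Submodule.mem_one] at ha
        obtain ⟨y, rfl⟩ := ha
        rw [Algebra.traceForm_apply, e, range_algebraMap_Ainf]
        exact H _ (hv' ▸ ⟨y, rfl⟩)
      · intro H x hx
        rw [hv'] at hx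
        obtain ⟨y, rfl⟩ := hx
        have := H (algebraMap Binf F y) (Submodule.mem_one.mpr ⟨y, rfl⟩)
        rwa [Algebra.traceForm_apply, e, range_algebraMap_Ainf] at this
  · have h1 : finrank k (regularSubspace u v) = 1 := by
      have : regularSubspace u v = Submodule.span k {(1 : F)} := by
        ext x
        rw [mem_regularSubspace, hu', hv', Submodule.mem_span_singleton]
        constructor
        · rintro ⟨h1, h2⟩
          obtain ⟨c, rfl⟩ := hconst x h1 h2
          exact ⟨c, by rw [Algebra.smul_def, mul_one]⟩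
        · rintro ⟨c, rfl⟩
          rw [Algebra.smul_def, mul_one]
          exact ⟨algebraMap_const_mem_range k F B c, algebraMap_const_mem_range_inf k F Binf c⟩
      rw [this]
      exact finrank_span_singleton one_ne_zero
    have h2 := finrank_differentialSubspace u v h1
    have h3 := hfin u hu'
    have h4 := hinf v hv'
    rw [h2, h3]
    linarith

end Assembly

end Fermat.Agent.ProgramR.Alg
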