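/-
Program R (helper3): canonical set-up for Theorem A.
Given a Dedekind domain `B`, finite and torsion-free over `k[X]` (and a `k`-algebra compatibly),
we package its fraction field `FF k B` as a finite extension of `RatFunc k`, and the integral
closure `Binf k B` of `Ainf k` in it (the chart at infinity), with all the instances needed by
`Alg/ThmA.lean`.
-/
import Mathlib
import Fermat.Agent.ProgramR.Alg.ThmA

set_option autoImplicit false

namespace Fermat.Agent.ProgramR.Alg

open Polynomial IsDedekindDomain Module nonZeroDivisors Fermat.Agent.ProgramR.RR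

/-- the fraction field of `B` (type synonym carrying the `RatFunc k`-algebra structure;
`k` is a phantom argument). -/
@[nolint unusedArguments]
def FF (k : Type*) (B : Type*) [CommRing B] : Type _ := (fun _ : Type _ => FractionRing B) k

section

variable (k : Type*) [Field k] (B : Type*) [CommRing B] [IsDedekindDomain B] [Algebra k B]
  [Algebra k[X] B] [IsScalarTower k k[X] B] [Module.Finite k[X] B] [IsTorsionFree k[X] B]

noncomputable instance : Field (FF k B) := inferInstanceAs (Field (FractionRing B))
noncomputable instance : Algebra B (FF k B) := inferInstanceAs (Algebra B (FractionRing B))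
instance : IsFractionRing B (FF k B) := inferInstanceAs (IsFractionRing B (FractionRing B))
noncomputable instance : Algebra k (FF k B) := inferInstanceAs (Algebra k (FractionRing B))
noncomputable instance : Algebra k[X] (FF k B) := inferInstanceAs (Algebra k[X] (FractionRing B))
instance : IsScalarTower k[X] B (FF k B) :=
  inferInstanceAs (IsScalarTower k[X] B (FractionRing B))
instance : IsScalarTower k B (FF k B) := inferInstanceAs (IsScalarTower k B (FractionRing B))

lemma algebraMap_polynomial_FF_injective : Function.Injective (algebraMap k[X] (FF k B)) := by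
  rw [IsScalarTower.algebraMap_eq k[X] B (FF k B)]
  exact (IsFractionRing.injective B (FF k B)).comp (FaithfulSMul.algebraMap_injective k[X] B)

noncomputable instance instAlgebraRatFuncFF : Algebra (RatFunc k) (FF k B) :=
  (IsFractionRing.lift (K := RatFunc k) (algebraMap_polynomial_FF_injective k B)).toAlgebra

instance : IsScalarTower k[X] (RatFunc k) (FF k B) :=
  IsScalarTower.of_algebraMap_eq fun p =>
    (IsFractionRing.lift_algebraMap (algebraMap_polynomial_FF_injective k B) p).symm

instance : IsScalarTower k (RatFunc k) (FF k B) := by
  refine IsScalarTower.of_algebraMap_eq fun c => ?_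
  have h1 : algebraMap k (RatFunc k) c = algebraMap k[X] (RatFunc k) (C c) := by
    rw [RatFunc.algebraMap_C]; rfl
  rw [h1, ← IsScalarTower.algebraMap_apply k[X] (RatFunc k) (FF k B),
    IsScalarTower.algebraMap_apply k[X] B (FF k B), IsScalarTower.algebraMap_apply k B (FF k B)]
  congr 1
  rw [IsScalarTower.algebraMap_apply k k[X] B]
  rfl

instance : FiniteDimensional (RatFunc k) (FF k B) := by
  have h := IsFractionRing.finrank_eq k[X] (RatFunc k) B (FF k B)
  have : Module.Free k[X] B := inferInstance
  have hpos : 0 < finrank k[X] B := Module.finrank_pos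
  exact Module.finite_of_finrank_pos (by omega)

lemma finrank_FF : finrank (RatFunc k) (FF k B) = finrank k[X] B :=
  IsFractionRing.finrank_eq k[X] (RatFunc k) B (FF k B)

variable [CharZero k]

/-- the chart at infinity: integral closure of `Ainf k` in the fraction field of `B`. -/
noncomputable abbrev Binf : Subalgebra (Ainf k) (FF k B) := integralClosure (Ainf k) (FF k B)

instance : CharZero (RatFunc k) :=
  charZero_of_injective_algebraMap (algebraMap k (RatFunc k)).injective

instance instIsDedekindDomainBinf : IsDedekindDomain (Binf k B) :=
  integralClosure.isDedekindDomain (Ainf k) (RatFunc k) (FF k B)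

instance instIsFractionRingBinf : IsFractionRing (Binf k B) (FF k B) :=
  integralClosure.isFractionRing_of_finite_extension (RatFunc k) (FF k B)

instance instFiniteBinf : Module.Finite (Ainf k) (Binf k B) :=
  IsIntegralClosure.finite (Ainf k) (RatFunc k) (FF k B) (Binf k B)

instance instTorsionFreeBinf : IsTorsionFree (Ainf k) (Binf k B) := by
  have hinj : Function.Injective (algebraMap (Ainf k) (Binf k B)) := by
    intro a b hab
    have h2 := congrArg (algebraMap (Binf k B) (FF k B)) hab
    rw [← IsScalarTower.algebraMap_apply, ← IsScalarTower.algebraMap_apply,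
      IsScalarTower.algebraMap_apply (Ainf k) (RatFunc k) (FF k B),
      IsScalarTower.algebraMap_apply (Ainf k) (RatFunc k) (FF k B)] at h2
    exact Subtype.ext ((algebraMap (RatFunc k) (FF k B)).injective h2)
  exact isTorsionFree_iff_algebraMap_injective.mpr hinj

/-- Theorem A in the canonical set-up (still modulo the discriminant computations b3). -/
theorem thmA_canonical_of_discr [IsAlgClosed k]
    (hfin : ∀ u : Module.Basis (Fin (finrank (RatFunc k) (FF k B))) (RatFunc k) (FF k B),
      Latt (Apoly k) u = Set.range (algebraMap B (FF k B)) →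
      (Algebra.discr (RatFunc k) u).intDegree = ∑ᶠ c : k, ((finrank (RatFunc k) (FF k B) : ℤ) -
        Nat.card {P : HeightOneSpectrum B // algebraMap k[X] B (X - C c) ∈ P.asIdeal}))
    (hinf : ∀ v : Module.Basis (Fin (finrank (RatFunc k) (FF k B))) (RatFunc k) (FF k B),
      Latt (Ainf k) v = Set.range (algebraMap (Binf k B) (FF k B)) →
      -(Algebra.discr (RatFunc k) v).intDegree =
        (finrank (RatFunc k) (FF k B) : ℤ) - Nat.card (HeightOneSpectrum (Binf k B)))
    (hconst : ∀ h : FF k B, h ∈ Set.range (algebraMap B (FF k B)) →
      h ∈ Set.range (algebraMap (Binf k B) (FF k B)) → h ∈ Set.range (algebraMap k (FF k B))) :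
    ∃ W : Submodule k (FF k B),
      (∀ h, h ∈ W ↔ FinCond k (FF k B) B h ∧ InfCond k (FF k B) (Binf k B) h) ∧
      2 * (finrank k W : ℤ) = 2 - 2 * (finrank k[X] B : ℤ)
        + ∑ᶠ c : k, ((finrank k[X] B : ℤ) -
            Nat.card {P : HeightOneSpectrum B // algebraMap k[X] B (X - C c) ∈ P.asIdeal})
        + ((finrank k[X] B : ℤ) - Nat.card (HeightOneSpectrum (Binf k B))) := by
  have := two_mul_finrank_holDiff_of_discr k (FF k B) B (Binf k B) hfin hinf hconst
  rwa [finrank_FF] at this

end

end Fermat.Agent.ProgramR.Alg
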